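import Fermat.Agent.S36.Mod3.H189.Chart3Abs
import Fermat.Agent.A2.Mod.H873.L13
import Fermat.Agent.A2.Mod.H751.Fricke
import Fermat.Agent.A2.ModDefs

/-!
# S36 / MOD3, cell CHART3 (helper189) — the chart fields of `TripleCtx` at level `M q²`

Level `N' = M q` (`F' = F_E(M q)`), level `N = M q q` (`F = F_E(M q q)`), degeneracy maps
`α = A2.Mod.αE E (M q) q`, `β = A2.Mod.βE E (M q) q : F' → F`.  Coordinates

* `x' = A2.Mod.xE E M q = j · j_q`            (the A2 coordinate of level `M q`),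
* `x  = x3 E M q = j · j_q · j_{q²}`   (the coordinate of level `M q²` suggested by the architect).

Results (all from the monicity of `Φ_q` and its two vanishing properties, `S28.ModPolyData q`):

* `j_mem_chart`, `jq_mem_chart`, `jqq_mem_chart`           : `j, j_q, j_{q²} ∈ chart R {x}`;
* `j_inv_mem_chart`, `jq_inv_mem_chart`, `jqq_inv_mem_chart` : their inverses lie in `chart R {x⁻¹}`;
* `chart_α`, `chart_β`  : the fields `chart_α`, `chart_β` of `S36.Eng.TripleCtx`;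
* `int_α`, `int_β`      : the fields `int_α`, `int_β` of `S36.Eng.TripleCtx`.

No hypothesis on `P`, `E`, `M`, `q` beyond `q` prime.
-/

set_option autoImplicit false
set_option synthInstance.maxHeartbeats 400000
set_option maxHeartbeats 1600000

noncomputable section

namespace Fermat.Agent.S36.Mod3.H189

open ModularCurve Polynomial
open Fermat.Agent.S18.H138 (chart mem_chart mem_chart_of_mem)
open Fermat.Agent

/-- transport of a vanishing statement `Φ(a; b) = 0` along a ring homomorphism -/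
theorem eval₂_aeval_map {K L : Type*} [CommRing K] [CommRing L] (φ : K →+* L)
    (Φ : Polynomial (Polynomial ℤ)) (a b : K)
    (h : Φ.eval₂ (Polynomial.aeval (R := ℤ) b).toRingHom a = 0) :
    Φ.eval₂ (Polynomial.aeval (R := ℤ) (φ b)).toRingHom (φ a) = 0 := by
  have h1 := Polynomial.hom_eval₂ Φ (Polynomial.aeval (R := ℤ) b).toRingHom φ a
  have hcomp : φ.comp (Polynomial.aeval (R := ℤ) b).toRingHom =
      (Polynomial.aeval (R := ℤ) (φ b)).toRingHom := by
    apply Polynomial.ringHom_ext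
    · intro n
      simp
    · simp
  rw [hcomp, h, map_zero] at h1
  exact h1.symm

variable (P : ValuationSubring A2.Qb) (E : IntermediateField ℚ A2.Qb) (M q : ℕ)
  [NeZero M] [NeZero q] [NeZero (M * q)]

/-! ## The generators -/

/-- `j` at level `M q`. -/
abbrev j' : A2.Mod.FE E (M * q) := A2.Mod.jE E (M * q) 1 (one_dvd _)

/-- `j_q` at level `M q`. -/
abbrev jq' : A2.Mod.FE E (M * q) := A2.Mod.jE E (M * q) q (dvd_mul_left q M)

/-- `j` at level `M q q`. -/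
abbrev j3 : A2.Mod.FE E (M * q * q) := A2.Mod.jE E (M * q * q) 1 (one_dvd _)

/-- `j_q` at level `M q q`. -/
abbrev jq3 : A2.Mod.FE E (M * q * q) := A2.Mod.jE E (M * q * q) q (dvd_mul_left q (M * q))

/-- `j_{q²}` at level `M q q`. -/
abbrev jqq3 : A2.Mod.FE E (M * q * q) :=
  A2.Mod.jE E (M * q * q) (q * q) (by rw [mul_assoc]; exact dvd_mul_left (q * q) M)

/-- **The coordinate of level `M q²`**: `x = j · j_q · j_{q²}`. -/
def x3 : A2.Mod.FE E (M * q * q) := j3 E M q * jq3 E M q * jqq3 E M q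

theorem x3_def : x3 E M q = j3 E M q * jq3 E M q * jqq3 E M q := rfl

theorem xE_eq : A2.Mod.xE E M q = j' E M q * jq' E M q := rfl

/-! ## The degeneracy maps on the generators -/

theorem alpha_j' : A2.Mod.αE E (M * q) q (j' E M q) = j3 E M q :=
  A2.Mod.H751.alpha_jE E (M * q) q 1 (one_dvd _)

theorem alpha_jq' : A2.Mod.αE E (M * q) q (jq' E M q) = jq3 E M q :=
  A2.Mod.H751.alpha_jE E (M * q) q q (dvd_mul_left q M)

theorem beta_j' : A2.Mod.βE E (M * q) q (j' E M q) = jq3 E M q := by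
  rw [A2.Mod.H751.beta_jE E (M * q) q 1 (one_dvd _)]
  exact A2.Mod.H751.jE_congr E (M * q * q) (mul_one q) _ _

theorem beta_jq' : A2.Mod.βE E (M * q) q (jq' E M q) = jqq3 E M q :=
  A2.Mod.H751.beta_jE E (M * q) q q (dvd_mul_left q M)

theorem alpha_xE : A2.Mod.αE E (M * q) q (A2.Mod.xE E M q) = j3 E M q * jq3 E M q := by
  rw [xE_eq, map_mul, alpha_j', alpha_jq']

theorem beta_xE : A2.Mod.βE E (M * q) q (A2.Mod.xE E M q) = jq3 E M q * jqq3 E M q := by
  rw [xE_eq, map_mul, beta_j', beta_jq']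

/-! ## The modular equations -/

section ModEq

variable (D : S28.ModPolyData q)

/-- `Φ_q(X = j; Y = j_q) = 0` at level `M q`. -/
theorem modEq_j' : D.Φ.eval₂ (Polynomial.aeval (R := ℤ) (jq' E M q)).toRingHom (j' E M q) = 0 :=
  A2.Mod.H873.eval₂_eq_zero_of_int E (M * q) D.Φ _ _ _ _ (A2.Mod.H873.coe_jE_one E (M * q))
    (A2.Mod.H873.coe_jE_int E (M * q) q (dvd_mul_left q M)) D.eval_j

/-- `Φ_q(X = j_q; Y = j) = 0` at level `M q`. -/
theorem modEq_jq' : D.Φ.eval₂ (Polynomial.aeval (R := ℤ) (j' E M q)).toRingHom (jq' E M q) = 0 :=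
  A2.Mod.H873.eval₂_eq_zero_of_int E (M * q) D.Φ _ _ _ _
    (A2.Mod.H873.coe_jE_int E (M * q) q (dvd_mul_left q M)) (A2.Mod.H873.coe_jE_one E (M * q)) D.eval_jp

/-- `Φ_q(X = j; Y = j_q) = 0` at level `M q q`. -/
theorem modEq_j_jq : D.Φ.eval₂ (Polynomial.aeval (R := ℤ) (jq3 E M q)).toRingHom (j3 E M q) = 0 := by
  have := eval₂_aeval_map (A2.Mod.αE E (M * q) q : A2.Mod.FE E (M * q) →+* A2.Mod.FE E (M * q * q)) D.Φ _ _
    (modEq_j' E M q D)
  rwa [AlgHom.coe_toRingHom, alpha_j', alpha_jq'] at this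

/-- `Φ_q(X = j_q; Y = j) = 0` at level `M q q`. -/
theorem modEq_jq_j : D.Φ.eval₂ (Polynomial.aeval (R := ℤ) (j3 E M q)).toRingHom (jq3 E M q) = 0 := by
  have := eval₂_aeval_map (A2.Mod.αE E (M * q) q : A2.Mod.FE E (M * q) →+* A2.Mod.FE E (M * q * q)) D.Φ _ _
    (modEq_jq' E M q D)
  rwa [AlgHom.coe_toRingHom, alpha_j', alpha_jq'] at this

/-- `Φ_q(X = j_q; Y = j_{q²}) = 0` at level `M q q`. -/
theorem modEq_jq_jqq :
    D.Φ.eval₂ (Polynomial.aeval (R := ℤ) (jqq3 E M q)).toRingHom (jq3 E M q) = 0 := by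
  have := eval₂_aeval_map (A2.Mod.βE E (M * q) q : A2.Mod.FE E (M * q) →+* A2.Mod.FE E (M * q * q)) D.Φ _ _
    (modEq_j' E M q D)
  rwa [AlgHom.coe_toRingHom, beta_j', beta_jq'] at this

/-- `Φ_q(X = j_{q²}; Y = j_q) = 0` at level `M q q`. -/
theorem modEq_jqq_jq :
    D.Φ.eval₂ (Polynomial.aeval (R := ℤ) (jq3 E M q)).toRingHom (jqq3 E M q) = 0 := by
  have := eval₂_aeval_map (A2.Mod.βE E (M * q) q : A2.Mod.FE E (M * q) →+* A2.Mod.FE E (M * q * q)) D.Φ _ _
    (modEq_jq' E M q D)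
  rwa [AlgHom.coe_toRingHom, beta_j', beta_jq'] at this

end ModEq

/-! ## The generators lie in the charts -/

section Mem

variable (hq : q.Prime)
include hq

/-- valuation subrings containing `x = j j_q j_{q²}` contain `j`, `j_q`, `j_{q²}` -/
theorem mem_of_x3_mem (V : ValuationSubring (A2.Mod.FE E (M * q * q))) (hx : x3 E M q ∈ V) :
    j3 E M q ∈ V ∧ jq3 E M q ∈ V ∧ jqq3 E M q ∈ V := by
  obtain ⟨D⟩ := S28.H807.nonempty_modPolyData q hq
  exact mem_triple V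
    (fun h => mem_valuationSubring_of_monic D.Φ D.monic (modEq_jq_j E M q D) V h)
    (fun h => mem_valuationSubring_of_monic D.Φ D.monic (modEq_j_jq E M q D) V h)
    (fun h => mem_valuationSubring_of_monic D.Φ D.monic (modEq_jqq_jq E M q D) V h)
    (fun h => mem_valuationSubring_of_monic D.Φ D.monic (modEq_jq_jqq E M q D) V h) hx

/-- valuation subrings containing `x⁻¹` contain `j⁻¹`, `j_q⁻¹`, `j_{q²}⁻¹` -/
theorem inv_mem_of_x3_inv_mem (V : ValuationSubring (A2.Mod.FE E (M * q * q)))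
    (hx : (x3 E M q)⁻¹ ∈ V) :
    (j3 E M q)⁻¹ ∈ V ∧ (jq3 E M q)⁻¹ ∈ V ∧ (jqq3 E M q)⁻¹ ∈ V := by
  obtain ⟨D⟩ := S28.H807.nonempty_modPolyData q hq
  exact inv_mem_triple (A2.Mod.H873.jE_ne_zero E _ _ _) (A2.Mod.H873.jE_ne_zero E _ _ _)
    (A2.Mod.H873.jE_ne_zero E _ _ _) V
    (fun h => mem_valuationSubring_of_monic D.Φ D.monic (modEq_jq_j E M q D) V h)
    (fun h => mem_valuationSubring_of_monic D.Φ D.monic (modEq_j_jq E M q D) V h)
    (fun h => mem_valuationSubring_of_monic D.Φ D.monic (modEq_jqq_jq E M q D) V h)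
    (fun h => mem_valuationSubring_of_monic D.Φ D.monic (modEq_jq_jqq E M q D) V h) hx

theorem j_mem_chart : j3 E M q ∈ chart (A2.RE P E) ({x3 E M q} : Set (A2.Mod.FE E (M * q * q))) :=
  mem_chart_of_forall_valuationSubring fun V hx => (mem_of_x3_mem E M q hq V hx).1

theorem jq_mem_chart : jq3 E M q ∈ chart (A2.RE P E) ({x3 E M q} : Set (A2.Mod.FE E (M * q * q))) :=
  mem_chart_of_forall_valuationSubring fun V hx => (mem_of_x3_mem E M q hq V hx).2.1

theorem jqq_mem_chart : jqq3 E M q ∈ chart (A2.RE P E) ({x3 E M q} : Set (A2.Mod.FE E (M * q * q))) :=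
  mem_chart_of_forall_valuationSubring fun V hx => (mem_of_x3_mem E M q hq V hx).2.2

theorem j_inv_mem_chart :
    (j3 E M q)⁻¹ ∈ chart (A2.RE P E) ({(x3 E M q)⁻¹} : Set (A2.Mod.FE E (M * q * q))) :=
  mem_chart_of_forall_valuationSubring fun V hx => (inv_mem_of_x3_inv_mem E M q hq V hx).1

theorem jq_inv_mem_chart :
    (jq3 E M q)⁻¹ ∈ chart (A2.RE P E) ({(x3 E M q)⁻¹} : Set (A2.Mod.FE E (M * q * q))) :=
  mem_chart_of_forall_valuationSubring fun V hx => (inv_mem_of_x3_inv_mem E M q hq V hx).2.1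

theorem jqq_inv_mem_chart :
    (jqq3 E M q)⁻¹ ∈ chart (A2.RE P E) ({(x3 E M q)⁻¹} : Set (A2.Mod.FE E (M * q * q))) :=
  mem_chart_of_forall_valuationSubring fun V hx => (inv_mem_of_x3_inv_mem E M q hq V hx).2.2

/-- `j ∈ chart R {x'}` at level `M q`. -/
theorem j'_mem_chart : j' E M q ∈ chart (A2.RE P E) ({A2.Mod.xE E M q} : Set (A2.Mod.FE E (M * q))) := by
  obtain ⟨D⟩ := S28.H807.nonempty_modPolyData q hq
  exact mem_chart_of_isIntegral_closure
    (A2.Mod.H873.isIntegral_closure_mul D.Φ D.monic (modEq_j' E M q D))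

/-- `j_q ∈ chart R {x'}` at level `M q`. -/
theorem jq'_mem_chart : jq' E M q ∈ chart (A2.RE P E) ({A2.Mod.xE E M q} : Set (A2.Mod.FE E (M * q))) := by
  obtain ⟨D⟩ := S28.H807.nonempty_modPolyData q hq
  have h := A2.Mod.H873.isIntegral_closure_mul D.Φ D.monic (modEq_jq' E M q D)
  rw [mul_comm (jq' E M q) (j' E M q)] at h
  exact mem_chart_of_isIntegral_closure h

/-! ## The fields `chart_α`, `chart_β`, `int_α`, `int_β` of `TripleCtx` -/

/-- **`chart_α`.** -/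
theorem chart_α : ∀ b ∈ chart (A2.RE P E) ({A2.Mod.xE E M q} : Set (A2.Mod.FE E (M * q))),
    A2.Mod.αE E (M * q) q b ∈ chart (A2.RE P E) ({x3 E M q} : Set (A2.Mod.FE E (M * q * q))) := by
  apply chart_map
  rw [alpha_xE]
  exact Subalgebra.mul_mem _ (j_mem_chart P E M q hq) (jq_mem_chart P E M q hq)

/-- **`chart_β`.** -/
theorem chart_β : ∀ b ∈ chart (A2.RE P E) ({A2.Mod.xE E M q} : Set (A2.Mod.FE E (M * q))),
    A2.Mod.βE E (M * q) q b ∈ chart (A2.RE P E) ({x3 E M q} : Set (A2.Mod.FE E (M * q * q))) := by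
  apply chart_map
  rw [beta_xE]
  exact Subalgebra.mul_mem _ (jq_mem_chart P E M q hq) (jqq_mem_chart P E M q hq)

/-- **`int_α`.** -/
theorem int_α : ∀ b ∈ chart (A2.RE P E) ({x3 E M q} : Set (A2.Mod.FE E (M * q * q))),
    ∃ p : Polynomial (A2.Mod.FE E (M * q)), p.Monic ∧
      (∀ i, p.coeff i ∈ chart (A2.RE P E) ({A2.Mod.xE E M q} : Set (A2.Mod.FE E (M * q)))) ∧
      (p.map (A2.Mod.αE E (M * q) q : A2.Mod.FE E (M * q) →+* A2.Mod.FE E (M * q * q))).eval b = 0 := by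
  obtain ⟨D⟩ := S28.H807.nonempty_modPolyData q hq
  apply int_map
  -- `x = α x' · j_{q²}`
  have hx : x3 E M q = A2.Mod.αE E (M * q) q (A2.Mod.xE E M q) * jqq3 E M q := by
    rw [alpha_xE, x3_def]
  rw [hx]
  have h1 : A2.Mod.αE E (M * q) q (A2.Mod.xE E M q) ∈ imgChart (R := A2.RE P E) (A2.Mod.αE E (M * q) q) (A2.Mod.xE E M q) :=
    mem_imgChart.mpr ⟨A2.Mod.xE E M q, mem_chart_of_mem rfl, rfl⟩
  have h2 : jq3 E M q ∈ imgChart (R := A2.RE P E) (A2.Mod.αE E (M * q) q) (A2.Mod.xE E M q) :=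
    mem_imgChart.mpr ⟨jq' E M q, jq'_mem_chart P E M q hq, alpha_jq' E M q⟩
  exact (isIntegral_algebraMap (R := imgChart (R := A2.RE P E) (A2.Mod.αE E (M * q) q) (A2.Mod.xE E M q))
    (x := ⟨_, h1⟩)).mul (isIntegral_of_monic_eval₂ D.Φ D.monic (modEq_jqq_jq E M q D) h2)

/-- **`int_β`.** -/
theorem int_β : ∀ b ∈ chart (A2.RE P E) ({x3 E M q} : Set (A2.Mod.FE E (M * q * q))),
    ∃ p : Polynomial (A2.Mod.FE E (M * q)), p.Monic ∧
      (∀ i, p.coeff i ∈ chart (A2.RE P E) ({A2.Mod.xE E M q} : Set (A2.Mod.FE E (M * q)))) ∧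
      (p.map (A2.Mod.βE E (M * q) q : A2.Mod.FE E (M * q) →+* A2.Mod.FE E (M * q * q))).eval b = 0 := by
  obtain ⟨D⟩ := S28.H807.nonempty_modPolyData q hq
  apply int_map
  -- `x = j · β x'`
  have hx : x3 E M q = j3 E M q * A2.Mod.βE E (M * q) q (A2.Mod.xE E M q) := by
    rw [beta_xE, x3_def]
    exact mul_assoc (j3 E M q) (jq3 E M q) (jqq3 E M q)
  rw [hx]
  have h1 : A2.Mod.βE E (M * q) q (A2.Mod.xE E M q) ∈ imgChart (R := A2.RE P E) (A2.Mod.βE E (M * q) q) (A2.Mod.xE E M q) :=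
    mem_imgChart.mpr ⟨A2.Mod.xE E M q, mem_chart_of_mem rfl, rfl⟩
  have h2 : jq3 E M q ∈ imgChart (R := A2.RE P E) (A2.Mod.βE E (M * q) q) (A2.Mod.xE E M q) :=
    mem_imgChart.mpr ⟨j' E M q, j'_mem_chart P E M q hq, beta_j' E M q⟩
  exact (isIntegral_of_monic_eval₂ D.Φ D.monic (modEq_j_jq E M q D) h2).mul
    (isIntegral_algebraMap (R := imgChart (R := A2.RE P E) (A2.Mod.βE E (M * q) q) (A2.Mod.xE E M q))
      (x := ⟨_, h1⟩))

end Mem

end Fermat.Agent.S36.Mod3.H189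

end
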