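import Fermat.Agent.S36.Mod3.Spec
import Fermat.Agent.S36.Mod3.H189.Chart3

/-!
# S36 / MOD3, leaf CHART (helper189): the integrality half of `LeafChart`, in the frozen shape

`Mod3.LeafChart` (= `PartChart` at the concrete objects of `Mod3/Spec.lean`) has eight fields.
The four integrality fields `chart_α`, `chart_β`, `int_α`, `int_β` are proved in
`Mod3/H189/Chart3.lean` (monicity of `Φ_q` + valuative criterion, no hypothesis beyond `q` prime).
The four residue fields `res_α₁`, `res_α₂`, `res_β₃`, `res_β₂` are collected in `LeafRes`: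

* `x3_eq_x3E`            : the coordinate of `Chart3.lean` is `Mod3.x3E` (`rfl`);
* `chart_α_x3E`, `chart_β_x3E`, `int_α_x3E`, `int_β_x3E` : the four fields at `x3E`, VERBATIM;
* `j1_mem_chart` … `jqq_inv_mem_chart` : `j, j_q, j_{q²} ∈ chart R {x3E}`, inverses in
  `chart R {x3E⁻¹}`;
* `LeafRes`, `leafChart_of_res : LeafRes → LeafChart`.
-/

set_option autoImplicit false
set_option linter.style.haveILetI false
set_option linter.unusedSectionVars false
set_option synthInstance.maxHeartbeats 400000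
set_option maxHeartbeats 1600000

noncomputable section

namespace Fermat.Agent.S36.Mod3.H189

open ModularCurve
open Fermat.Agent.S18.H138 (chart)
open Fermat.Agent Fermat.Agent.S36.Eng

section Concrete

variable (P : ValuationSubring A2.Qb) (E : IntermediateField ℚ A2.Qb) (M q : ℕ)
  [NeZero M] [NeZero q] [NeZero (M * q)]

theorem x3_eq_x3E : x3 E M q = Mod3.x3E E M q := rfl

theorem j3_eq_j1 : j3 E M q = Mod3.j1 E M q := rfl

theorem jq3_eq_jq : jq3 E M q = Mod3.jq E M q := rfl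

theorem jqq3_eq_jqq : jqq3 E M q = Mod3.jqq E M q := rfl

variable (hq : q.Prime)
include hq

theorem j1_mem_chart :
    Mod3.j1 E M q ∈ chart (A2.RE P E) ({Mod3.x3E E M q} : Set (A2.Mod.FE E (M * q * q))) :=
  j_mem_chart P E M q hq

theorem jq_mem_chart' :
    Mod3.jq E M q ∈ chart (A2.RE P E) ({Mod3.x3E E M q} : Set (A2.Mod.FE E (M * q * q))) :=
  jq_mem_chart P E M q hq

theorem jqq_mem_chart' :
    Mod3.jqq E M q ∈ chart (A2.RE P E) ({Mod3.x3E E M q} : Set (A2.Mod.FE E (M * q * q))) :=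
  jqq_mem_chart P E M q hq

theorem j1_inv_mem_chart :
    (Mod3.j1 E M q)⁻¹ ∈
      chart (A2.RE P E) ({(Mod3.x3E E M q)⁻¹} : Set (A2.Mod.FE E (M * q * q))) :=
  j_inv_mem_chart P E M q hq

theorem jq_inv_mem_chart' :
    (Mod3.jq E M q)⁻¹ ∈
      chart (A2.RE P E) ({(Mod3.x3E E M q)⁻¹} : Set (A2.Mod.FE E (M * q * q))) :=
  jq_inv_mem_chart P E M q hq

theorem jqq_inv_mem_chart' :
    (Mod3.jqq E M q)⁻¹ ∈
      chart (A2.RE P E) ({(Mod3.x3E E M q)⁻¹} : Set (A2.Mod.FE E (M * q * q))) :=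
  jqq_inv_mem_chart P E M q hq

/-- **`chart_α`** at the frozen objects. -/
theorem chart_α_x3E : ∀ b ∈ chart (A2.RE P E) ({A2.Mod.xE E M q} : Set (A2.Mod.FE E (M * q))),
    A2.Mod.αE E (M * q) q b ∈
      chart (A2.RE P E) ({Mod3.x3E E M q} : Set (A2.Mod.FE E (M * q * q))) :=
  chart_α P E M q hq

/-- **`chart_β`** at the frozen objects. -/
theorem chart_β_x3E : ∀ b ∈ chart (A2.RE P E) ({A2.Mod.xE E M q} : Set (A2.Mod.FE E (M * q))),
    A2.Mod.βE E (M * q) q b ∈
      chart (A2.RE P E) ({Mod3.x3E E M q} : Set (A2.Mod.FE E (M * q * q))) :=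
  chart_β P E M q hq

/-- **`int_α`** at the frozen objects. -/
theorem int_α_x3E :
    ∀ b ∈ chart (A2.RE P E) ({Mod3.x3E E M q} : Set (A2.Mod.FE E (M * q * q))),
    ∃ p : Polynomial (A2.Mod.FE E (M * q)), p.Monic ∧
      (∀ i, p.coeff i ∈ chart (A2.RE P E) ({A2.Mod.xE E M q} : Set (A2.Mod.FE E (M * q)))) ∧
      (p.map (A2.Mod.αE E (M * q) q : A2.Mod.FE E (M * q) →+* A2.Mod.FE E (M * q * q))).eval b
        = 0 :=
  int_α P E M q hq

/-- **`int_β`** at the frozen objects. -/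
theorem int_β_x3E :
    ∀ b ∈ chart (A2.RE P E) ({Mod3.x3E E M q} : Set (A2.Mod.FE E (M * q * q))),
    ∃ p : Polynomial (A2.Mod.FE E (M * q)), p.Monic ∧
      (∀ i, p.coeff i ∈ chart (A2.RE P E) ({A2.Mod.xE E M q} : Set (A2.Mod.FE E (M * q)))) ∧
      (p.map (A2.Mod.βE E (M * q) q : A2.Mod.FE E (M * q) →+* A2.Mod.FE E (M * q * q))).eval b
        = 0 :=
  int_β P E M q hq

end Concrete

/-- The residue half of `PartChart` (residue degree one in chart form), generic. -/
structure PartRes (R : Type*) [CommRing R] {E F F' : Type*} [Field E] [Field F] [Algebra E F]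
    [Algebra R F] [Field F'] [Algebra E F'] [Algebra R F']
    (α β : F' →ₐ[E] F) (x : F) (x' : F') (V₁ V₂ V₃ : ValuationSubring F) : Prop where
  res_α₁ : ∀ b ∈ chart R ({x} : Set F), ∃ b' ∈ chart R ({x'} : Set F'), b - α b' ∈ V₁.nonunits
  res_α₂ : ∀ b ∈ chart R ({x} : Set F), ∃ b' ∈ chart R ({x'} : Set F'), b - α b' ∈ V₂.nonunits
  res_β₃ : ∀ b ∈ chart R ({x} : Set F), ∃ b' ∈ chart R ({x'} : Set F'), b - β b' ∈ V₃.nonunits
  res_β₂ : ∀ b ∈ chart R ({x} : Set F), ∃ b' ∈ chart R ({x'} : Set F'), b - β b' ∈ V₂.nonunits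

/-- **RES (leaf)**: the residue half of `LeafChart`. -/
def LeafRes : Prop :=
  Mod3.Leaf fun P E M q _ _ _ _ _ _ V₁ V₂ V₃ =>
    PartRes (A2.RE P E) (A2.Mod.αE E (M * q) q) (A2.Mod.βE E (M * q) q)
      (Mod3.x3E E M q) (A2.Mod.xE E M q) V₁ V₂ V₃

/-- **`LeafChart` from its residue half.** -/
theorem leafChart_of_res (h : LeafRes) : Mod3.LeafChart := by
  intro P E M q _ _ _ w hS V₁' V₂' V₁ V₂ V₃ W' W hO
  have hr := h P E M q w hS V₁' V₂' V₁ V₂ V₃ W' W hO
  exact
    { chart_α := chart_α_x3E P E M q hS.q_prime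
      chart_β := chart_β_x3E P E M q hS.q_prime
      int_α := int_α_x3E P E M q hS.q_prime
      int_β := int_β_x3E P E M q hS.q_prime
      res_α₁ := hr.res_α₁
      res_α₂ := hr.res_α₂
      res_β₃ := hr.res_β₃
      res_β₂ := hr.res_β₂ }

end Fermat.Agent.S36.Mod3.H189

end
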