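import Fermat.Agent.S18.H138.Charts
import Fermat.Agent.A2.Mod.H189.ChartChange

/-!
# S36 / MOD3, cell CHART3 (helper189) — abstract part (Mathlib only)

The chart fields `chart_α`, `chart_β`, `int_α`, `int_β` of `S36.Eng.TripleCtx` and the membership
of the generators in the charts, in abstract form.

* `isIntegral_of_monic_eval₂` : `Φ(a; b) = 0`, `Φ ∈ ℤ[Y][X]` monic in `X`, `b ∈ A` ⟹ `a` integral
  over `A`;
* `mem_triple`, `inv_mem_triple` : valuative criterion for `x = a b c` when `a ~ b ~ c` are
  pairwise integral over each other along the chain `a — b — c`;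
* `mem_chart_of_forall_valuationSubring` : the valuative criterion for the chart `chart R {x}`;
* `chart_map` : `α x' ∈ chart R {x}` ⟹ `α (chart R {x'}) ⊆ chart R {x}`          (`chart_α`, `chart_β`);
* `int_map` : `x` integral over `α (chart R {x'})` ⟹ `chart R {x}` is integral over
  `α (chart R {x'})`, in the polynomial form of `TripleCtx`                  (`int_α`, `int_β`).
-/

set_option autoImplicit false

noncomputable section

namespace Fermat.Agent.S36.Mod3.H189

open Polynomial
open Fermat.Agent.S18.H138 (chart mem_chart)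

section Valuative

variable {K : Type*} [Field K]

/-- `Φ(X = a; Y = b) = 0` with `Φ` monic in `X` and `b` in a valuation subring `V` gives
`a ∈ V`. -/
theorem mem_valuationSubring_of_monic {a b : K} (Φ : Polynomial (Polynomial ℤ))
    (hΦ : Φ.Monic) (h : Φ.eval₂ (Polynomial.aeval (R := ℤ) b).toRingHom a = 0)
    (V : ValuationSubring K) (hb : b ∈ V) : a ∈ V := by
  have hint : IsIntegral V a := by
    refine ⟨Φ.map (Polynomial.aeval (R := ℤ) (⟨b, hb⟩ : V)).toRingHom, hΦ.map _, ?_⟩
    rw [Polynomial.eval₂_map]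
    rw [← h]
    congr 1
    apply Polynomial.ringHom_ext
    · intro n
      simp
    · simp
  obtain ⟨y, hy⟩ := IsIntegrallyClosed.isIntegral_iff (R := V) (K := K) |>.mp hint
  rw [← hy]
  exact y.2

/-- Valuative criterion for a product of three elements along a chain `a — b — c` of mutually
integral elements: a valuation subring containing `a b c` contains `a`, `b`, `c`. -/
theorem mem_triple {a b c : K} (V : ValuationSubring K)
    (hab : a ∈ V → b ∈ V) (hba : b ∈ V → a ∈ V) (hbc : b ∈ V → c ∈ V) (hcb : c ∈ V → b ∈ V)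
    (hx : a * b * c ∈ V) : a ∈ V ∧ b ∈ V ∧ c ∈ V := by
  by_cases ha : a ∈ V
  · exact ⟨ha, hab ha, hbc (hab ha)⟩
  · exfalso
    have hb : b ∉ V := fun h => ha (hba h)
    have hc : c ∉ V := fun h => hb (hcb h)
    have hb0 : b ≠ 0 := fun h => hb (h ▸ V.zero_mem)
    have hc0 : c ≠ 0 := fun h => hc (h ▸ V.zero_mem)
    have hbi : b⁻¹ ∈ V := (V.mem_or_inv_mem b).resolve_left hb
    have hci : c⁻¹ ∈ V := (V.mem_or_inv_mem c).resolve_left hc
    have e : a = a * b * c * b⁻¹ * c⁻¹ := by field_simp
    exact ha (e ▸ V.mul_mem _ _ (V.mul_mem _ _ hx hbi) hci)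

/-- The same at infinity: a valuation subring containing `(a b c)⁻¹` contains `a⁻¹`, `b⁻¹`,
`c⁻¹`. -/
theorem inv_mem_triple {a b c : K} (ha0 : a ≠ 0) (hb0 : b ≠ 0) (hc0 : c ≠ 0)
    (V : ValuationSubring K)
    (hab : a ∈ V → b ∈ V) (hba : b ∈ V → a ∈ V) (hbc : b ∈ V → c ∈ V) (hcb : c ∈ V → b ∈ V)
    (hx : (a * b * c)⁻¹ ∈ V) : a⁻¹ ∈ V ∧ b⁻¹ ∈ V ∧ c⁻¹ ∈ V := by
  have key : ∀ y : K, y ∈ V ∨ y⁻¹ ∈ V := V.mem_or_inv_mem
  refine ⟨?_, ?_, ?_⟩
  · by_contra h
    have ha : a ∈ V := (key a).resolve_right h
    have hb : b ∈ V := hab ha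
    have hc : c ∈ V := hbc hb
    have e : a⁻¹ = b * c * (a * b * c)⁻¹ := by field_simp
    exact h (e ▸ V.mul_mem _ _ (V.mul_mem _ _ hb hc) hx)
  · by_contra h
    have hb : b ∈ V := (key b).resolve_right h
    have ha : a ∈ V := hba hb
    have hc : c ∈ V := hbc hb
    have e : b⁻¹ = a * c * (a * b * c)⁻¹ := by field_simp
    exact h (e ▸ V.mul_mem _ _ (V.mul_mem _ _ ha hc) hx)
  · by_contra h
    have hc : c ∈ V := (key c).resolve_right h
    have hb : b ∈ V := hcb hc
    have ha : a ∈ V := hba hb
    have e : c⁻¹ = a * b * (a * b * c)⁻¹ := by field_simp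
    exact h (e ▸ V.mul_mem _ _ (V.mul_mem _ _ ha hb) hx)

/-- valuative criterion, one element: `a` lies in every valuation subring containing `x`
implies `a` is integral over `ℤ[x]`. -/
theorem isIntegral_closure_of_forall {x a : K}
    (h : ∀ V : ValuationSubring K, x ∈ V → a ∈ V) :
    IsIntegral (Subring.closure ({x} : Set K)) a := by
  have key := iInf_valuationSubring_superset (K := K) (s := ({x} : Set K))
  have hmem : a ∈ (integralClosure (Subring.closure ({x} : Set K)) K).toSubring := by
    rw [← key]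
    rw [Subring.mem_iInf]
    rintro ⟨V, hV⟩
    exact h V (hV (Set.mem_singleton x))
  exact hmem

end Valuative

section Chart

variable {R : Type*} [CommRing R] {K : Type*} [Field K] [Algebra R K]

/-- Integrality over `ℤ[x]` gives membership in the chart `chart R {x}`. -/
theorem mem_chart_of_isIntegral_closure {x a : K}
    (h : IsIntegral (Subring.closure ({x} : Set K)) a) : a ∈ chart R ({x} : Set K) := by
  rw [mem_chart]
  have hle : Subring.closure ({x} : Set K) ≤ (Algebra.adjoin R ({x} : Set K)).toSubring :=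
    Subring.closure_le.mpr (Set.singleton_subset_iff.mpr (Algebra.subset_adjoin rfl))
  have := IsIntegral.map_of_comp_eq (R := Subring.closure ({x} : Set K)) (S := K)
    (T := Algebra.adjoin R ({x} : Set K)) (U := K) (Subring.inclusion hle) (RingHom.id K)
    (by ext; rfl) h
  simpa using this

/-- The valuative criterion for the chart. -/
theorem mem_chart_of_forall_valuationSubring {x a : K}
    (h : ∀ V : ValuationSubring K, x ∈ V → a ∈ V) : a ∈ chart R ({x} : Set K) :=
  mem_chart_of_isIntegral_closure (isIntegral_closure_of_forall h)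

/-- `Φ(X = a; Y = b) = 0` with `Φ` monic in `X` and `b` in a subalgebra `A` gives: `a` is
integral over `A`. -/
theorem isIntegral_of_monic_eval₂ {A : Subalgebra R K} {a b : K}
    (Φ : Polynomial (Polynomial ℤ)) (hΦ : Φ.Monic)
    (h : Φ.eval₂ (Polynomial.aeval (R := ℤ) b).toRingHom a = 0) (hb : b ∈ A) :
    IsIntegral A a := by
  refine ⟨Φ.map (Polynomial.aeval (R := ℤ) (⟨b, hb⟩ : A)).toRingHom, hΦ.map _, ?_⟩
  rw [Polynomial.eval₂_map]
  rw [← h]
  congr 1
  apply Polynomial.ringHom_ext
  · intro n
    simp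
  · simp

end Chart

section Maps

variable {R E F F' : Type*} [CommRing R] [Field E] [Algebra R E]
  [Field F] [Algebra E F] [Algebra R F] [IsScalarTower R E F]
  [Field F'] [Algebra E F'] [Algebra R F'] [IsScalarTower R E F']

/-- The image under `α` of the chart `chart R {x'}`, as a subalgebra of `F`. -/
def imgChart (α : F' →ₐ[E] F) (x' : F') : Subalgebra R F :=
  (chart R ({x'} : Set F')).map (α.restrictScalars R)

theorem mem_imgChart {α : F' →ₐ[E] F} {x' : F'} {y : F} :
    y ∈ imgChart (R := R) α x' ↔ ∃ b ∈ chart R ({x'} : Set F'), α b = y := by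
  unfold imgChart
  rw [Subalgebra.mem_map]
  rfl

/-- **`chart_α` / `chart_β`, abstract form.**  If `α x'` lies in the chart of `x`, then `α` maps
the chart of `x'` into the chart of `x`. -/
theorem chart_map {α : F' →ₐ[E] F} {x : F} {x' : F'}
    (h : α x' ∈ chart R ({x} : Set F)) :
    ∀ b ∈ chart R ({x'} : Set F'), α b ∈ chart R ({x} : Set F) := by
  intro b hb
  rw [mem_chart] at hb ⊢
  -- `α b` is integral over the image of `R[x']`
  set A : Subalgebra R F := (Algebra.adjoin R ({x'} : Set F')).map (α.restrictScalars R) with hA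
  let φ : Algebra.adjoin R ({x'} : Set F') →+* A :=
    { toFun := fun a => ⟨α (a : F'), by
        rw [hA, Subalgebra.mem_map]
        exact ⟨(a : F'), a.2, rfl⟩⟩
      map_one' := Subtype.ext (map_one α)
      map_mul' := fun a b => Subtype.ext (map_mul α (a : F') (b : F'))
      map_zero' := Subtype.ext (map_zero α)
      map_add' := fun a b => Subtype.ext (map_add α (a : F') (b : F')) }
  have h1 : IsIntegral A (α b) := by
    have := IsIntegral.map_of_comp_eq (R := Algebra.adjoin R ({x'} : Set F')) (S := F')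
      (T := A) (U := F) φ (α : F' →+* F) (by ext a; rfl) hb
    simpa using this
  -- the image of `R[x']` is integral over `R[x]`
  refine Fermat.Agent.A2.Mod.H189.isIntegral_of_forall_isIntegral ?_ h1
  intro a ha
  rw [hA, Subalgebra.mem_map] at ha
  obtain ⟨a₀, ha₀, rfl⟩ := ha
  induction ha₀ using Algebra.adjoin_induction with
  | mem y hy =>
    rw [Set.mem_singleton_iff] at hy
    subst hy
    exact h
  | algebraMap r =>
    have : (α.restrictScalars R) (algebraMap R F' r) = algebraMap R F r :=
      (α.restrictScalars R).commutes r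
    rw [this]
    exact isIntegral_algebraMap (R := Algebra.adjoin R ({x} : Set F))
      (x := ⟨algebraMap R F r, Subalgebra.algebraMap_mem _ r⟩)
  | add y z _ _ hy hz =>
    rw [map_add]
    exact hy.add hz
  | mul y z _ _ hy hz =>
    rw [map_mul]
    exact hy.mul hz

/-- Integrality over the image of a chart, in the polynomial form of `TripleCtx`. -/
theorem exists_poly_of_isIntegral_imgChart {α : F' →ₐ[E] F} {x' : F'} {b : F}
    (h : IsIntegral (imgChart (R := R) α x') b) :
    ∃ p : Polynomial F', p.Monic ∧ (∀ i, p.coeff i ∈ chart R ({x'} : Set F')) ∧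
      (p.map (α : F' →+* F)).eval b = 0 := by
  obtain ⟨q, hq, hqb⟩ := h
  let ψ : chart R ({x'} : Set F') →+* imgChart (R := R) α x' :=
    { toFun := fun a => ⟨α (a : F'), mem_imgChart.mpr ⟨(a : F'), a.2, rfl⟩⟩
      map_one' := Subtype.ext (map_one α)
      map_mul' := fun a b => Subtype.ext (map_mul α (a : F') (b : F'))
      map_zero' := Subtype.ext (map_zero α)
      map_add' := fun a b => Subtype.ext (map_add α (a : F') (b : F')) }
  have hψ : Function.Surjective ψ := by
    rintro ⟨y, hy⟩
    obtain ⟨a, ha, rfl⟩ := mem_imgChart.mp hy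
    exact ⟨⟨a, ha⟩, rfl⟩
  have hl : q ∈ lifts ψ := by
    rw [lifts_iff_coeff_lifts]
    intro n
    exact hψ _
  obtain ⟨p, hpq, -, hp⟩ := lifts_and_degree_eq_and_monic hl hq
  refine ⟨p.map (chart R ({x'} : Set F')).val.toRingHom, hp.map _, fun i => ?_, ?_⟩
  · rw [coeff_map]
    exact (p.coeff i).2
  · rw [Polynomial.map_map, ← hqb, ← hpq, eval₂_map, eval_map]
    rfl

/-- The polynomial form of `TripleCtx` gives integrality over the image of the chart. -/
theorem isIntegral_imgChart_of_poly {α : F' →ₐ[E] F} {x' : F'} {b : F}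
    (h : ∃ p : Polynomial F', p.Monic ∧ (∀ i, p.coeff i ∈ chart R ({x'} : Set F')) ∧
      (p.map (α : F' →+* F)).eval b = 0) : IsIntegral (imgChart (R := R) α x') b := by
  obtain ⟨p, hp, hc, hpb⟩ := h
  have hcoef : ∀ i, (p.map (α : F' →+* F)).coeff i ∈ (imgChart (R := R) α x').toSubring := by
    intro i
    rw [coeff_map]
    exact mem_imgChart.mpr ⟨p.coeff i, hc i, rfl⟩
  have hsub : ((p.map (α : F' →+* F)).coeffs : Set F) ⊆ (imgChart (R := R) α x').toSubring := by
    intro y hy
    obtain ⟨i, -, rfl⟩ := Polynomial.mem_coeffs_iff.mp (Finset.mem_coe.mp hy)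
    exact hcoef i
  refine ⟨(p.map (α : F' →+* F)).toSubring (imgChart (R := R) α x').toSubring hsub, ?_, ?_⟩
  · exact (Polynomial.monic_toSubring _ _ hsub).mpr (hp.map _)
  · have h1 := Polynomial.map_toSubring (p.map (α : F' →+* F))
      (imgChart (R := R) α x').toSubring hsub
    have h2 : eval₂ (algebraMap (imgChart (R := R) α x') F) b
        ((p.map (α : F' →+* F)).toSubring (imgChart (R := R) α x').toSubring hsub) =
        (((p.map (α : F' →+* F)).toSubring (imgChart (R := R) α x').toSubring hsub).map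
          (imgChart (R := R) α x').toSubring.subtype).eval b := by
      rw [eval_map]
      rfl
    rw [h2, h1]
    exact hpb

/-- **`int_α` / `int_β`, abstract form.**  If `x` is integral over the image of the chart of
`x'`, then the chart of `x` is integral over the image of the chart of `x'`. -/
theorem int_map {α : F' →ₐ[E] F} {x : F} {x' : F'}
    (hx : IsIntegral (imgChart (R := R) α x') x) :
    ∀ b ∈ chart R ({x} : Set F), ∃ p : Polynomial F', p.Monic ∧
      (∀ i, p.coeff i ∈ chart R ({x'} : Set F')) ∧ (p.map (α : F' →+* F)).eval b = 0 := by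
  intro b hb
  rw [mem_chart] at hb
  apply exists_poly_of_isIntegral_imgChart
  refine Fermat.Agent.A2.Mod.H189.isIntegral_of_forall_isIntegral ?_ hb
  intro a ha
  induction ha using Algebra.adjoin_induction with
  | mem y hy =>
    rw [Set.mem_singleton_iff] at hy
    subst hy
    exact hx
  | algebraMap r =>
    exact isIntegral_algebraMap (R := imgChart (R := R) α x')
      (x := ⟨algebraMap R F r, Subalgebra.algebraMap_mem _ r⟩)
  | add y z _ _ hy hz => exact hy.add hz
  | mul y z _ _ hy hz => exact hy.mul hz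

end Maps

end Fermat.Agent.S36.Mod3.H189

end
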