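import Fermat.Agent.S36.Mod3.H189.ResAbs
import Fermat.Agent.S36.Mod3.Spec
import Fermat.Agent.S36.Mod3.H933.FFCore
import Fermat.Agent.S35.G.H862.Model
import Fermat.Agent.S36.H193.SheetsAll
import Fermat.Agent.A2.H643.BaseLeaf

/-!
# S36 / MOD3 (helper189) — normality of the two components of level `M q`, in `Eng` form

At the level `M q` (`q ∤ M`, neat) the finite chart `B' = chart R {x'}`, `x' = j j_q`, is the
semistable chart of cell A2 (`S35.G.H862.exists_chart_cutBy`): two components `p₁ = B' ∩ 𝔪_{V∞}`,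
`p₂ = B' ∩ 𝔪_{V₀}`, both with integrally closed quotient.  `V∞`, `V₀` are sheets (`A2.H12.IsSheet`),
hence the local rings of `B'` at `p₁`, `p₂` (`S36.H193.sheet_mem_iff`).  Therefore

* `isSheet_vinf`, `isSheet_vzero` : `V₁'`, `V₂' = V₁' ∘ W'` are sheets of `x'`;
* `normalAlong_vinf`  : `Eng.NormalAlong (chart R {x'}) V₁'`;
* `normalAlong_vzero` : `Eng.NormalAlong (chart R {x'}) (V₁'.comap W')`.
-/

set_option autoImplicit false
set_option linter.style.haveILetI false
set_option linter.unusedSectionVars false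
set_option synthInstance.maxHeartbeats 400000
set_option maxHeartbeats 1600000

noncomputable section

namespace Fermat.Agent.S36.Mod3.H189

open ModularCurve Polynomial
open Fermat.Agent.S18.H138 (chart baseField)
open Fermat.Agent Fermat.Agent.S36.Eng

universe u

section Abs

variable {R : Type u} [CommRing R] [IsDomain R] [IsDiscreteValuationRing R]
  {L : Type u} [Field L] [Algebra R L]

/-- A valuation ring inducing the Gauss valuation on `R[x]` is a sheet. -/
theorem isSheet_of_isGaussOver {w : R} (hw : Irreducible w) {V : ValuationSubring L} {x : L}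
    (h : A2.H489.IsGaussOver R V x) : A2.H12.IsSheet w x V := by
  refine ⟨h.isOver.mem, h.mem, ?_, ?_⟩
  · exact h.isOver.nonunit w ((IsLocalRing.mem_maximalIdeal w).2 hw.not_isUnit)
  · rintro p ⟨i, hi⟩
    by_contra hinv
    have hn : aeval x p ∈ V.nonunits := by
      rw [ValuationSubring.mem_nonunits_iff_or]
      exact Or.inr hinv
    have h0 := h.prim p hn
    apply hi
    have h1 : (p.map (IsLocalRing.residue R)).coeff i = 0 := by rw [h0, coeff_zero]
    rw [coeff_map, IsLocalRing.residue_eq_zero_iff, hw.maximalIdeal_eq,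
      Ideal.mem_span_singleton] at h1
    exact h1

end Abs

section Concrete

variable (P : ValuationSubring A2.Qb) (E : IntermediateField ℚ A2.Qb) (M q : ℕ)
  [NeZero M] [NeZero q] [NeZero (M * q)]

variable {P E M q}

theorem setting_of_std {w : A2.RE P E} (hS : Mod3.Std P E M q w) : A2.Mod.Setting P E M q w where
  q_prime := hS.q_prime
  q_not_dvd := hS.q_not_dvd
  M_ne_zero := NeZero.ne M
  lies_over := hS.lies_over
  dvr := hS.unram.1.dvr
  unif := hS.unif

theorem transcendental_xE (hq : q.Prime) (hqM : ¬ q ∣ M) :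
    Transcendental E (A2.Mod.xE E M q) :=
  (A2.Mod.H31.deg E M q hq hqM).1

/-- `V∞` of level `M q` is a sheet of `x' = j j_q`. -/
theorem isSheet_vinf {w : A2.RE P E} (hS : Mod3.Std P E M q w)
    {V : ValuationSubring (A2.Mod.FE E (M * q))} (hV : A2.Mod.IsVinf P E (M * q) V) :
    A2.H12.IsSheet w (A2.Mod.xE E M q) V := by
  haveI : IsDiscreteValuationRing (A2.RE P E) := hS.unram.1.dvr
  exact isSheet_of_isGaussOver hS.unif
    (A2.Mod.H13.isGaussOver_xE hS.unif hV (transcendental_xE hS.q_prime hS.q_not_dvd))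

/-- `V₀ = V∞ ∘ W` of level `M q` is a sheet of `x' = j j_q`. -/
theorem isSheet_vzero {w : A2.RE P E} (hS : Mod3.Std P E M q w)
    {V : ValuationSubring (A2.Mod.FE E (M * q))} (hV : A2.Mod.IsVinf P E (M * q) V)
    {W : A2.Mod.FE E (M * q) ≃ₐ[E] A2.Mod.FE E (M * q)} (hW : A2.Mod.IsFricke E (M * q) W) :
    A2.H12.IsSheet w (A2.Mod.xE E M q)
      (V.comap (W : A2.Mod.FE E (M * q) →+* A2.Mod.FE E (M * q))) := by
  haveI : IsDiscreteValuationRing (A2.RE P E) := hS.unram.1.dvr
  exact isSheet_of_isGaussOver hS.unif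
    (A2.Mod.H13.isGaussOver_comap_xE hS.unif hV hW (transcendental_xE hS.q_prime hS.q_not_dvd))

/-- **Normality of the two components of level `M q`** (finite chart), in `Eng` form. -/
theorem normalAlong_level {w : A2.RE P E} (hS : Mod3.Std P E M q w)
    {V : ValuationSubring (A2.Mod.FE E (M * q))} (hV : A2.Mod.IsVinf P E (M * q) V)
    {W : A2.Mod.FE E (M * q) ≃ₐ[E] A2.Mod.FE E (M * q)} (hW : A2.Mod.IsFricke E (M * q) W) :
    NormalAlong (chart (A2.RE P E) ({A2.Mod.xE E M q} : Set (A2.Mod.FE E (M * q)))) V ∧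
    NormalAlong (chart (A2.RE P E) ({A2.Mod.xE E M q} : Set (A2.Mod.FE E (M * q))))
      (V.comap (W : A2.Mod.FE E (M * q) →+* A2.Mod.FE E (M * q))) := by
  have hSet := setting_of_std hS
  haveI : IsDiscreteValuationRing (A2.RE P E) := hS.unram.1.dvr
  have hAux := hS.neat.hasAux
  obtain ⟨VM, hVM⟩ := A2.Mod.H553.vinfExists P E M hSet.M_ne_zero hSet.dvr
  obtain ⟨hg₁, -⟩ := A2.Mod.H216.goodRedHyp_of_dvr P E M hSet.q_prime hSet.q_not_dvd
    hAux.1 hAux.2 hSet.lies_over hSet.dvr w VM hSet.unif hVM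
  obtain ⟨cf, hcf⟩ := S35.G.H862.exists_chart_cutBy hSet (S35.G.H862.s1 P E M q w)
    (A2.Mod.H142.s2 P E M q w) (S35.G.H862.s3 P E M q w) VM V W hVM hV hW _ _
    (Or.inl ⟨rfl, rfl⟩) hg₁
  have hu : A2.H48.IsUnif V (A2.Mod.cE P E (M * q) w) :=
    (A2.Mod.H553.vinfBasic P E w (M * q) (NeZero.ne _) hSet.dvr hSet.unif V hV).1
  have hu' := A2.Mod.H13.isUnif_comap hu W
  have htr : Transcendental E (A2.Mod.xE E M q) := transcendental_xE hS.q_prime hS.q_not_dvd
  haveI : FiniteDimensional (IntermediateField.adjoin E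
      ({A2.Mod.xE E M q} : Set (A2.Mod.FE E (M * q)))) (A2.Mod.FE E (M * q)) :=
    Mod3.H933.finiteDimensional_of_transcendental E (M * q) (NeZero.ne _) _ htr
  haveI : FiniteDimensional (baseField (A2.RE P E) (A2.Mod.xE E M q)) (A2.Mod.FE E (M * q)) :=
    A2.H643.finiteDimensional_baseField_of_adjoin (E := E) _
  have hinj : Function.Injective (algebraMap (A2.RE P E) (A2.Mod.FE E (M * q))) := by
    intro a b hab
    have h1 : algebraMap E (A2.Mod.FE E (M * q)) (a : E) =
        algebraMap E (A2.Mod.FE E (M * q)) (b : E) := hab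
    exact Subtype.ext ((algebraMap E (A2.Mod.FE E (M * q))).injective h1)
  have hwp : Prime w := hS.unif.prime
  have htrR : Transcendental (A2.RE P E) (A2.Mod.xE E M q) := A2.Mod.H13.transcendental_RE htr
  have key : NormalAlong (A2.Mod.chartAlg P E (M * q) (A2.Mod.xE E M q)) V ∧
      NormalAlong (A2.Mod.chartAlg P E (M * q) (A2.Mod.xE E M q))
        (V.comap (W : A2.Mod.FE E (M * q) →+* A2.Mod.FE E (M * q))) := by
    constructor
    · refine @normalAlong_of_closed _ _ _ _ _ (A2.Mod.chartAlg P E (M * q) (A2.Mod.xE E M q))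
        V cf.p₁ cf.prime₁ cf.normal₁ hcf.le₁ (fun b => ?_) (fun y hy => ?_)
      · rw [hcf.cut₁]
        exact A2.Mod.H13.inW_iff_mem_nonunits hu _
      · exact (S36.H193.sheet_mem_iff hinj hwp htrR (isSheet_vinf hS hV) y).1 hy
    · refine @normalAlong_of_closed _ _ _ _ _ (A2.Mod.chartAlg P E (M * q) (A2.Mod.xE E M q))
        _ cf.p₂ cf.prime₂ cf.normal₂ hcf.le₂ (fun b => ?_) (fun y hy => ?_)
      · rw [hcf.cut₂]
        exact A2.Mod.H13.inW_iff_mem_nonunits hu' _
      · exact (S36.H193.sheet_mem_iff hinj hwp htrR (isSheet_vzero hS hV hW) y).1 hy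
  exact key

end Concrete

end Fermat.Agent.S36.Mod3.H189

end
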