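import Fermat.Agent.S36.Mod3.SpecVT
import Fermat.Agent.S36.Mod3.H189.ChartLeaf
import Fermat.Agent.S36.Mod3.H189.LevelNormal

/-!
# S36 / MOD3, leaf CHART (helper189): `LeafVT → LeafTable → LeafVal → LeafChart`

`Mod3.LeafChart` has eight fields.

* `chart_α`, `chart_β`, `int_α`, `int_β` : unconditional (`Mod3/H189/Chart3.lean`, `ChartLeaf.lean`).
* `res_α₁`, `res_α₂`, `res_β₃`, `res_β₂` (residue degree one in CHART form): from
  - residue degree one at the level of the valuation rings (`LeafVT`: `res_α₁ … res_β₂`),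
  - lying over (`LeafTable`: `comap_α₁`, `comap_α₂`, `comap_β₃`, `comap_β₂`, and `comap_α₃` for
    `R ⊆ V₃`),
  - `x ∈ V_i` (`LeafVal`: `x_unit_i`),
  - `int_α`, `int_β` (above),
  - normality of the two components of level `M q` (`LevelNormal.lean`: cell A2 on main),
  by `res_chart_of_normalAlong` (`ResAbs.lean`).

**`leafChart_of : LeafVT → LeafTable → LeafVal → LeafChart`.**
-/

set_option autoImplicit false
set_option linter.style.haveILetI false
set_option linter.unusedSectionVars false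
set_option synthInstance.maxHeartbeats 400000
set_option maxHeartbeats 1600000

noncomputable section

namespace Fermat.Agent.S36.Mod3.H189

open ModularCurve
open Fermat.Agent.S18.H138 (chart)
open Fermat.Agent Fermat.Agent.S36.Eng

section Abs

variable {R K : Type*} [CommRing R] [Field K] [Algebra R K]

/-- A valuation ring containing `R` and `x` contains the chart `chart R {x}`. -/
theorem chart_le_valuationSubring (V : ValuationSubring K) {x : K}
    (hR : ∀ r : R, algebraMap R K r ∈ V) (hx : x ∈ V) :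
    ∀ b ∈ chart R ({x} : Set K), b ∈ V := by
  intro b hb
  have hle : ∀ a ∈ Algebra.adjoin R ({x} : Set K), a ∈ V := by
    intro a ha
    induction ha using Algebra.adjoin_induction with
    | mem y hy =>
      rw [Set.mem_singleton_iff] at hy
      rw [hy]
      exact hx
    | algebraMap r => exact hR r
    | add y z _ _ hy hz => exact V.add_mem _ _ hy hz
    | mul y z _ _ hy hz => exact V.mul_mem _ _ hy hz
  obtain ⟨p, hpm, hp0⟩ := (Fermat.Agent.S18.H138.mem_chart).1 hb
  let φ : Algebra.adjoin R ({x} : Set K) →+* V :=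
    { toFun := fun a => ⟨(a : K), hle a a.2⟩
      map_one' := rfl
      map_mul' := fun _ _ => rfl
      map_zero' := rfl
      map_add' := fun _ _ => rfl }
  have hφ : (algebraMap V K).comp φ = algebraMap (Algebra.adjoin R ({x} : Set K)) K := by
    ext a
    rfl
  have hint : IsIntegral V b := by
    refine ⟨p.map φ, hpm.map φ, ?_⟩
    rw [Polynomial.eval₂_map, hφ]
    exact hp0
  obtain ⟨y, hy⟩ := IsIntegrallyClosed.isIntegral_iff (R := V) (K := K) |>.mp hint
  rw [← hy]
  exact y.2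

end Abs

section Base

variable {R E F F' : Type*} [CommRing R] [Field E] [Algebra R E]
  [Field F] [Algebra E F] [Algebra R F] [IsScalarTower R E F]
  [Field F'] [Algebra E F'] [Algebra R F'] [IsScalarTower R E F']

/-- `R ⊆ V'` and `V | V'` along an `E`-algebra homomorphism give `R ⊆ V`. -/
theorem base_of_comap (α : F' →ₐ[E] F) (V : ValuationSubring F) (V' : ValuationSubring F')
    (hcomap : V.comap (α : F' →+* F) = V') (hR : ∀ r : R, algebraMap R F' r ∈ V') :
    ∀ r : R, algebraMap R F r ∈ V := by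
  intro r
  have h1 : algebraMap R F' r ∈ V.comap (α : F' →+* F) := by
    rw [hcomap]
    exact hR r
  have h2 : α (algebraMap R F' r) ∈ V := h1
  rwa [IsScalarTower.algebraMap_apply R E F', AlgHom.commutes,
    ← IsScalarTower.algebraMap_apply R E F] at h2

end Base

/-- **`LeafChart`** from the valuation-level table, lying over, and `x ∈ V_i`. -/
theorem leafChart_of (hVT : Mod3.LeafVT) (hT : Mod3.LeafTable) (hVal : Mod3.LeafVal) :
    Mod3.LeafChart := by
  apply leafChart_of_res
  intro P E M q _ _ _ w hS V₁' V₂' V₁ V₂ V₃ W' W hO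
  have vt := hVT P E M q w hS V₁' V₂' V₁ V₂ V₃ W' W hO
  have tb := hT P E M q w hS V₁' V₂' V₁ V₂ V₃ W' W hO
  have vl := hVal P E M q w hS V₁' V₂' V₁ V₂ V₃ W' W hO
  obtain ⟨hn₁, hn₂⟩ := normalAlong_level hS hO.vinf' hO.fricke'
  rw [← hO.vzero'] at hn₂
  have sh₁ := isSheet_vinf hS hO.vinf'
  have sh₂ : A2.H12.IsSheet w (A2.Mod.xE E M q) V₂' := by
    rw [hO.vzero']
    exact isSheet_vzero hS hO.vinf' hO.fricke'
  have hB'₁ := S36.H193.sheet_chart_le sh₁
  have hB'₂ := S36.H193.sheet_chart_le sh₂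
  have hR₁ : ∀ r : A2.RE P E, algebraMap (A2.RE P E) (A2.Mod.FE E (M * q * q)) r ∈ V₁ :=
    base_of_comap _ V₁ V₁' tb.comap_α₁ sh₁.1
  have hR₂ : ∀ r : A2.RE P E, algebraMap (A2.RE P E) (A2.Mod.FE E (M * q * q)) r ∈ V₂ :=
    base_of_comap _ V₂ V₁' tb.comap_α₂ sh₁.1
  have hR₃ : ∀ r : A2.RE P E, algebraMap (A2.RE P E) (A2.Mod.FE E (M * q * q)) r ∈ V₃ :=
    base_of_comap _ V₃ V₂' tb.comap_α₃ sh₂.1
  have hB₁ := chart_le_valuationSubring V₁ hR₁ vl.x_unit₁.2.1
  have hB₂ := chart_le_valuationSubring V₂ hR₂ vl.x_unit₂.2.1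
  have hB₃ := chart_le_valuationSubring V₃ hR₃ vl.x_unit₃.2.1
  exact
    { res_α₁ := res_chart_of_normalAlong _ _ _ V₁ V₁' tb.comap_α₁ hn₁
        (int_α_x3E P E M q hS.q_prime) hB'₁ hB₁ vt.res_α₁
      res_α₂ := res_chart_of_normalAlong _ _ _ V₂ V₁' tb.comap_α₂ hn₁
        (int_α_x3E P E M q hS.q_prime) hB'₁ hB₂ vt.res_α₂
      res_β₃ := res_chart_of_normalAlong _ _ _ V₃ V₂' tb.comap_β₃ hn₂
        (int_β_x3E P E M q hS.q_prime) hB'₂ hB₃ vt.res_β₃
      res_β₂ := res_chart_of_normalAlong _ _ _ V₂ V₂' tb.comap_β₂ hn₂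
        (int_β_x3E P E M q hS.q_prime) hB'₂ hB₂ vt.res_β₂ }

end Fermat.Agent.S36.Mod3.H189

end
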