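import Fermat.Agent.S36.Eng.Spec

/-!
# S36 / MOD3, cell CHART (helper189) — residue degree one in chart form, abstract part

Vocabulary of `S36/Eng/Spec.lean`.  Mathlib only.

* `normalAlong_of_closed` : a chart `B ⊆ V` whose centre `p = B ∩ 𝔪_V` has an integrally closed
  quotient `B / p`, with `V` the local ring of `B` at `p` (`hfrac`), is `Eng.NormalAlong B V`.
* `res_chart_of_normalAlong` : the chart form of residue degree one.  `V | V'` along `α`,
  `B ⊆ V` integral over `α B'`, `B'` normal along `V'`, residue degree one at the level of the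
  valuation rings  ⟹  `∀ b ∈ B, ∃ b' ∈ B', b - α b' ∈ 𝔪_V`
  (the shape of the fields `res_α₁`, `res_α₂`, `res_β₃`, `res_β₂` of `Eng.TripleCtx`).
-/

set_option autoImplicit false
set_option linter.style.haveILetI false
set_option linter.unusedSectionVars false

noncomputable section

namespace Fermat.Agent.S36.Mod3.H189

open Polynomial
open Fermat.Agent.S36.Eng (NormalAlong)

section Nonunits

variable {K : Type*} [Field K]

theorem mul_mem_nonunits_left (V : ValuationSubring K) {x y : K} (hx : x ∈ V)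
    (hy : y ∈ V.nonunits) : x * y ∈ V.nonunits := by
  rw [ValuationSubring.mem_nonunits_iff] at hy ⊢
  rw [map_mul]
  calc V.valuation x * V.valuation y ≤ 1 * V.valuation y := by
        gcongr
        exact (V.valuation_le_one_iff x).2 hx
    _ < 1 := by rwa [one_mul]

theorem mul_mem_nonunits_right (V : ValuationSubring K) {x y : K} (hx : x ∈ V.nonunits)
    (hy : y ∈ V) : x * y ∈ V.nonunits := by
  rw [mul_comm]
  exact mul_mem_nonunits_left V hy hx

theorem nonunits_subset (V : ValuationSubring K) {x : K} (hx : x ∈ V.nonunits) : x ∈ V :=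
  (V.valuation_le_one_iff x).1 ((ValuationSubring.mem_nonunits_iff V).1 hx).le

theorem inv_mem_of_not_mem_nonunits (V : ValuationSubring K) {s : K} (hs : s ∉ V.nonunits) :
    s⁻¹ ∈ V := by
  rw [ValuationSubring.mem_nonunits_iff_or, not_or, not_not] at hs
  exact hs.2

theorem ne_zero_of_not_mem_nonunits (V : ValuationSubring K) {s : K} (hs : s ∉ V.nonunits) :
    s ≠ 0 := by
  rw [ValuationSubring.mem_nonunits_iff_or, not_or, not_not] at hs
  exact hs.1

/-- Nonunits of the pull-back of a valuation ring along a field homomorphism. -/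
theorem mem_nonunits_comap_iff {K' : Type*} [Field K'] (V : ValuationSubring K) (φ : K' →+* K)
    (f : K') : f ∈ (V.comap φ).nonunits ↔ φ f ∈ V.nonunits := by
  rw [ValuationSubring.mem_nonunits_iff_or, ValuationSubring.mem_nonunits_iff_or,
    ValuationSubring.mem_comap]
  constructor
  · rintro (h | h)
    · left
      rw [h, map_zero]
    · right
      intro h'
      apply h
      rw [map_inv₀]
      exact h'
  · rintro (h | h)
    · left
      exact (map_eq_zero φ).mp h
    · right
      intro h'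
      apply h
      rwa [map_inv₀] at h'

end Nonunits

section Normal

variable {R F : Type*} [CommRing R] [Field F] [Algebra R F]

/-- A root modulo `𝔪_V` of a monic polynomial over `B ⊆ V` lies in `V`. -/
theorem mem_of_monic_aeval_nonunit (B : Subalgebra R F) (V : ValuationSubring F)
    (hle : ∀ b ∈ B, b ∈ V) {f : F} (P : Polynomial B) (hPm : P.Monic)
    (hPf : aeval f P ∈ V.nonunits) : f ∈ V := by
  classical
  let φ : B →+* V :=
    { toFun := fun b => ⟨(b : F), hle b b.2⟩
      map_one' := rfl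
      map_mul' := fun _ _ => rfl
      map_zero' := rfl
      map_add' := fun _ _ => rfl }
  have hφ : (algebraMap V F).comp φ = algebraMap B F := by
    ext b
    rfl
  have hc : aeval f P ∈ V := nonunits_subset V hPf
  have hdeg : 0 < P.natDegree := by
    rcases Nat.eq_zero_or_pos P.natDegree with h0 | h0
    · exfalso
      have h1 : P = 1 := by
        have := Polynomial.eq_C_of_natDegree_eq_zero h0
        rw [this]
        have hl : P.coeff 0 = 1 := by
          have := hPm.leadingCoeff
          rwa [Polynomial.leadingCoeff, h0] at this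
        rw [hl, map_one]
      rw [h1, map_one, ValuationSubring.mem_nonunits_iff, map_one] at hPf
      exact lt_irrefl _ hPf
    · exact h0
  have hint : IsIntegral V f := by
    refine ⟨P.map φ - C ⟨aeval f P, hc⟩, ?_, ?_⟩
    · apply (hPm.map φ).sub_of_left
      have h2 : (P.map φ).natDegree = P.natDegree := hPm.natDegree_map φ
      have h3 : (P.map φ).degree = (P.natDegree : WithBot ℕ) := by
        rw [Polynomial.degree_eq_natDegree (hPm.map φ).ne_zero, h2]
      calc (C (⟨aeval f P, hc⟩ : V)).degree ≤ 0 := degree_C_le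
        _ < (P.map φ).degree := by
            rw [h3]
            exact_mod_cast hdeg
    · rw [eval₂_sub, eval₂_map, eval₂_C, hφ]
      show eval₂ (algebraMap B F) f P - aeval f P = 0
      rw [Polynomial.aeval_def, sub_self]
  obtain ⟨y, hy⟩ := IsIntegrallyClosed.isIntegral_iff (R := V) (K := F) |>.mp hint
  rw [← hy]
  exact y.2

/-- In a ring `A` with `A / 𝔭` an integrally closed domain: if `t / s` (`s ∉ 𝔭`) is a root modulo
`𝔭` of a monic polynomial, in the homogeneous form `(P.scaleRoots s)(t) ∈ 𝔭`, then `t ≡ b s` modulo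
`𝔭` for some `b ∈ A`. -/
theorem exists_mul_sub_mem_of_scaleRoots_mem {A : Type*} [CommRing A] (p : Ideal A) [p.IsPrime]
    [IsIntegrallyClosed (A ⧸ p)] (P : A[X]) (hPm : P.Monic) (s t : A) (hs : s ∉ p)
    (hB : eval t (P.scaleRoots s) ∈ p) : ∃ b : A, b * s - t ∈ p := by
  classical
  have hfinj : Function.Injective (algebraMap (A ⧸ p) (FractionRing (A ⧸ p))) :=
    IsFractionRing.injective (A ⧸ p) (FractionRing (A ⧸ p))
  have hs0 : algebraMap (A ⧸ p) (FractionRing (A ⧸ p)) (Ideal.Quotient.mk p s) ≠ 0 := by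
    intro h
    have h1 : Ideal.Quotient.mk p s = 0 := hfinj (by rw [h, map_zero])
    exact hs (Ideal.Quotient.eq_zero_iff_mem.1 h1)
  have hint : IsIntegral (A ⧸ p)
      (algebraMap (A ⧸ p) (FractionRing (A ⧸ p)) (Ideal.Quotient.mk p t) /
        algebraMap (A ⧸ p) (FractionRing (A ⧸ p)) (Ideal.Quotient.mk p s)) := by
    refine ⟨P.map (Ideal.Quotient.mk p), hPm.map _, ?_⟩
    have h2 := scaleRoots_eval₂_mul (p := P.map (Ideal.Quotient.mk p))
      (algebraMap (A ⧸ p) (FractionRing (A ⧸ p)))
      (algebraMap (A ⧸ p) (FractionRing (A ⧸ p)) (Ideal.Quotient.mk p t) /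
        algebraMap (A ⧸ p) (FractionRing (A ⧸ p)) (Ideal.Quotient.mk p s)) (Ideal.Quotient.mk p s)
    have h3 : algebraMap (A ⧸ p) (FractionRing (A ⧸ p)) (Ideal.Quotient.mk p s) *
        (algebraMap (A ⧸ p) (FractionRing (A ⧸ p)) (Ideal.Quotient.mk p t) /
        algebraMap (A ⧸ p) (FractionRing (A ⧸ p)) (Ideal.Quotient.mk p s))
        = algebraMap (A ⧸ p) (FractionRing (A ⧸ p)) (Ideal.Quotient.mk p t) := by
      field_simp
    have h4 : (P.map (Ideal.Quotient.mk p)).scaleRoots (Ideal.Quotient.mk p s)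
        = (P.scaleRoots s).map (Ideal.Quotient.mk p) := by
      rw [map_scaleRoots]
      rw [hPm.leadingCoeff, map_one]
      exact one_ne_zero
    rw [h3, eval₂_at_apply, h4, eval_map, eval₂_at_apply] at h2
    have h5 : Ideal.Quotient.mk p (eval t (P.scaleRoots s)) = 0 :=
      Ideal.Quotient.eq_zero_iff_mem.2 hB
    rw [h5, map_zero] at h2
    rcases mul_eq_zero.1 h2.symm with h | h
    · exact absurd (eq_zero_of_pow_eq_zero h) hs0
    · exact h
  obtain ⟨a, ha⟩ := IsIntegrallyClosed.isIntegral_iff.1 hint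
  obtain ⟨b', rfl⟩ := Ideal.Quotient.mk_surjective a
  refine ⟨b', ?_⟩
  rw [← Ideal.Quotient.eq_zero_iff_mem]
  apply hfinj
  rw [map_zero, map_sub, map_sub, map_mul, map_mul, ha]
  field_simp
  ring

/-- **Normality along a component**, from the ring-theoretic form: `B ⊆ V`, `p = B ∩ 𝔪_V`,
`B / p` integrally closed, `V` the local ring of `B` at `p`. -/
theorem normalAlong_of_closed (B : Subalgebra R F) (V : ValuationSubring F) (p : Ideal B)
    [p.IsPrime] [IsIntegrallyClosed (B ⧸ p)]
    (hle : ∀ b ∈ B, b ∈ V)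
    (hp : ∀ b : B, b ∈ p ↔ (b : F) ∈ V.nonunits)
    (hfrac : ∀ y ∈ V, ∃ a s : B, (s : F) ∉ V.nonunits ∧ y = a * (s : F)⁻¹) :
    NormalAlong B V := by
  intro f P hPm hPf
  have hfV : f ∈ V := mem_of_monic_aeval_nonunit B V hle P hPm hPf
  obtain ⟨a, s, hs, hfa⟩ := hfrac f hfV
  have hs0 : (s : F) ≠ 0 := ne_zero_of_not_mem_nonunits V hs
  have hsi : (s : F)⁻¹ ∈ V := inv_mem_of_not_mem_nonunits V hs
  have hsp : s ∉ p := fun h => hs ((hp s).1 h)
  -- `(P.scaleRoots s)(a) = s ^ n * P(f)`
  have h1 : ((eval a (P.scaleRoots s) : B) : F) = (s : F) ^ P.natDegree * aeval f P := by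
    have h2 := scaleRoots_eval₂_mul (p := P) (algebraMap B F) f s
    have h3 : algebraMap B F s * f = algebraMap B F a := by
      rw [hfa]
      show (s : F) * ((a : F) * (s : F)⁻¹) = (a : F)
      field_simp
    rw [h3, eval₂_at_apply] at h2
    rw [Polynomial.aeval_def]
    exact h2
  have h4 : eval a (P.scaleRoots s) ∈ p := by
    rw [hp, h1]
    exact mul_mem_nonunits_left V (pow_mem (hle s s.2) _) hPf
  obtain ⟨b, hb⟩ := exists_mul_sub_mem_of_scaleRoots_mem p P hPm s a hsp h4
  refine ⟨b, ?_⟩
  have h5 : f - (b : F) = -(((b * s - a : B) : F)) * (s : F)⁻¹ := by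
    rw [hfa]
    push_cast
    field_simp
    ring
  rw [h5]
  exact mul_mem_nonunits_right V (neg_mem ((hp _).1 hb)) hsi

end Normal

section Res

variable {R E F F' : Type*} [CommRing R] [Field E] [Algebra R E]
  [Field F] [Algebra E F] [Algebra R F] [Field F'] [Algebra E F'] [Algebra R F']

/-- **RES, chart form.**  Residue degree one at the level of the valuation rings, integrality of
the chart `B` over `α B'` and normality of `B'` along `V'` give residue degree one in chart
form. -/
theorem res_chart_of_normalAlong (α : F' →ₐ[E] F) (B' : Subalgebra R F') (B : Subalgebra R F)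
    (V : ValuationSubring F) (V' : ValuationSubring F')
    (hcomap : V.comap (α : F' →+* F) = V')
    (hnorm : NormalAlong B' V')
    (hint : ∀ b ∈ B, ∃ p : Polynomial F', p.Monic ∧ (∀ i, p.coeff i ∈ B') ∧
      (p.map (α : F' →+* F)).eval b = 0)
    (hB'V' : ∀ b ∈ B', b ∈ V')
    (hBV : ∀ b ∈ B, b ∈ V)
    (hres : ∀ z ∈ V, ∃ y ∈ V', z - α y ∈ V.nonunits) :
    ∀ b ∈ B, ∃ b' ∈ B', b - α b' ∈ V.nonunits := by
  classical
  intro b hb
  have hover : ∀ a : F', α a ∈ V ↔ a ∈ V' := by
    intro a
    rw [← hcomap]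
    rfl
  have hoverN : ∀ a : F', α a ∈ V.nonunits ↔ a ∈ V'.nonunits := by
    intro a
    rw [← hcomap, mem_nonunits_comap_iff]
    rfl
  obtain ⟨y, hy, hby⟩ := hres b (hBV b hb)
  obtain ⟨p, hpm, hpc, hp0⟩ := hint b hb
  -- lift `p` to `B'[X]`
  have hlift : p ∈ Polynomial.lifts (algebraMap B' F') := by
    rw [Polynomial.lifts_iff_coeff_lifts]
    intro n
    exact ⟨⟨p.coeff n, hpc n⟩, rfl⟩
  obtain ⟨P, hP, -, hPm⟩ := Polynomial.lifts_and_degree_eq_and_monic hlift hpm
  -- the ring homomorphism `B' → V`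
  let φ : B' →+* V :=
    { toFun := fun c => ⟨α (c : F'), (hover _).2 (hB'V' c c.2)⟩
      map_one' := by ext; simp
      map_mul' := fun x y => by ext; simp
      map_zero' := by ext; simp
      map_add' := fun x y => by ext; simp }
  have hφ : ∀ x : V, ((eval x (P.map φ) : V) : F) = eval (x : F) (p.map (α : F' →+* F)) := by
    intro x
    rw [← hP, Polynomial.map_map, eval_map, eval_map]
    have hcomp : (V.subtype : V →+* F).comp φ = (α : F' →+* F).comp (algebraMap B' F') := by
      ext c
      rfl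
    have := hom_eval₂ P φ (V.subtype : V →+* F) x
    rw [hcomp] at this
    exact this
  have hyV : α y ∈ V := (hover y).2 hy
  have hbV : b ∈ V := hBV b hb
  -- `P(y) ∈ 𝔪_{V'}`
  have hA : aeval y P ∈ V'.nonunits := by
    rw [← hoverN]
    have h1 : α (aeval y P) = eval (α y) (p.map (α : F' →+* F)) := by
      rw [← hP, Polynomial.map_map, eval_map, Polynomial.aeval_def]
      exact hom_eval₂ P (algebraMap B' F') (α : F' →+* F) y
    obtain ⟨c, hc⟩ := sub_dvd_eval_sub (⟨α y, hyV⟩ : V) ⟨b, hbV⟩ (P.map φ)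
    have h4 : ((eval (⟨α y, hyV⟩ : V) (P.map φ) - eval (⟨b, hbV⟩ : V) (P.map φ) : V) : F)
        = (((⟨α y, hyV⟩ : V) - ⟨b, hbV⟩) * c : V) := congrArg (fun x : V => (x : F)) hc
    push_cast at h4
    rw [hφ, hφ] at h4
    rw [hp0, sub_zero] at h4
    rw [h1, h4]
    refine mul_mem_nonunits_right V ?_ c.2
    have : α y - b = -(b - α y) := by ring
    rw [this]
    exact neg_mem hby
  obtain ⟨b', hb'⟩ := hnorm y P hPm hA
  refine ⟨b', b'.2, ?_⟩
  have h6 : b - α (b' : F') = (b - α y) + α (y - (b' : F')) := by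
    rw [map_sub]
    ring
  rw [h6]
  exact add_mem hby ((hoverN _).2 hb')

end Res

end Fermat.Agent.S36.Mod3.H189

end
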